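import Mathlib

/-!
# FF3 / Birkhoff : elementary ultrametric estimates (Mathlib-only leaf)

`R` is a commutative normed ring whose distance is ultrametric.  We collect the few
estimates used by the abstract Birkhoff factorisation:

* `norm_add3_le`   : `‖x + y + z‖ ≤ δ` as soon as the three norms are `≤ δ`;
* `norm_one_add_mul_sub_one_le` : `‖(1+x)(1+y) - 1‖ ≤ ε` for `‖x‖, ‖y‖ ≤ ε ≤ 1`;
* `norm_triple_sub_le` : the **linearisation estimate**
  `‖(1+a)(1+b)(1+d) - (1+a')(1+b')(1+d') - ((a-a') + (b-b') + (d-d'))‖ ≤ ε δ`;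
* `exists_one_add_inv_mem` : in a complete `R`, `1 + h` (`‖h‖ < 1`) has an inverse `1 + z`,
  with `z` in any closed additive subgroup containing `h` and stable under `h * ·`.
-/

set_option autoImplicit false

namespace Fermat.Agent.FF3.Birkhoff

open Function Metric

section Ultra

variable {R : Type*} [NormedCommRing R] [IsUltrametricDist R]

theorem norm_add_le_of_le {δ : ℝ} {x y : R} (hx : ‖x‖ ≤ δ) (hy : ‖y‖ ≤ δ) : ‖x + y‖ ≤ δ :=
  (IsUltrametricDist.norm_add_le_max x y).trans (max_le hx hy)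

theorem norm_sub_le_of_le {δ : ℝ} {x y : R} (hx : ‖x‖ ≤ δ) (hy : ‖y‖ ≤ δ) : ‖x - y‖ ≤ δ := by
  rw [sub_eq_add_neg]
  exact norm_add_le_of_le hx (by rwa [norm_neg])

theorem norm_add3_le {δ : ℝ} {x y z : R} (hx : ‖x‖ ≤ δ) (hy : ‖y‖ ≤ δ) (hz : ‖z‖ ≤ δ) :
    ‖x + y + z‖ ≤ δ :=
  norm_add_le_of_le (norm_add_le_of_le hx hy) hz

omit [IsUltrametricDist R] in
theorem norm_mul_le_of_le {ε δ : ℝ} {x y : R} (hx : ‖x‖ ≤ ε) (hy : ‖y‖ ≤ δ) :
    ‖x * y‖ ≤ ε * δ :=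
  (norm_mul_le x y).trans
    (mul_le_mul hx hy (norm_nonneg _) ((norm_nonneg _).trans hx))

/-- `‖(1+x)(1+y) - 1‖ ≤ ε` for `‖x‖, ‖y‖ ≤ ε ≤ 1`. -/
theorem norm_one_add_mul_sub_one_le {ε : ℝ} (hε1 : ε ≤ 1) {x y : R}
    (hx : ‖x‖ ≤ ε) (hy : ‖y‖ ≤ ε) : ‖(1 + x) * (1 + y) - 1‖ ≤ ε := by
  have hε0 : 0 ≤ ε := (norm_nonneg _).trans hx
  have h : (1 + x) * (1 + y) - 1 = x + y + x * y := by ring
  rw [h]
  refine norm_add3_le hx hy ((norm_mul_le_of_le hx hy).trans ?_)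
  calc ε * ε ≤ ε * 1 := mul_le_mul_of_nonneg_left hε1 hε0
    _ = ε := mul_one ε

/-- **Linearisation estimate** for the triple product `(1+a)(1+b)(1+d)`. -/
theorem norm_triple_sub_le {ε δ : ℝ} (hε1 : ε ≤ 1) {a b d a' b' d' : R}
    (hb : ‖b‖ ≤ ε) (hd : ‖d‖ ≤ ε) (ha' : ‖a'‖ ≤ ε) (hb' : ‖b'‖ ≤ ε)
    (hda : ‖a - a'‖ ≤ δ) (hdb : ‖b - b'‖ ≤ δ) (hdd : ‖d - d'‖ ≤ δ) :
    ‖(1 + a) * (1 + b) * (1 + d) - (1 + a') * (1 + b') * (1 + d')
        - ((a - a') + (b - b') + (d - d'))‖ ≤ ε * δ := by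
  have h : (1 + a) * (1 + b) * (1 + d) - (1 + a') * (1 + b') * (1 + d')
        - ((a - a') + (b - b') + (d - d'))
      = ((1 + b) * (1 + d) - 1) * (a - a') + ((1 + a') * (1 + d) - 1) * (b - b')
        + ((1 + a') * (1 + b') - 1) * (d - d') := by ring
  rw [h]
  exact norm_add3_le
    (norm_mul_le_of_le (norm_one_add_mul_sub_one_le hε1 hb hd) hda)
    (norm_mul_le_of_le (norm_one_add_mul_sub_one_le hε1 ha' hd) hdb)
    (norm_mul_le_of_le (norm_one_add_mul_sub_one_le hε1 ha' hb') hdd)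

/-- `‖(1+x)^n - 1‖ ≤ ε` for `‖x‖ ≤ ε ≤ 1`. -/
theorem norm_one_add_pow_sub_one_le {ε : ℝ} (hε1 : ε ≤ 1) {x : R} (hx : ‖x‖ ≤ ε) (n : ℕ) :
    ‖(1 + x) ^ n - 1‖ ≤ ε := by
  have hε0 : 0 ≤ ε := (norm_nonneg _).trans hx
  induction n with
  | zero => simpa using hε0
  | succ n ih =>
    have h : (1 + x) ^ (n + 1) - 1 = (1 + ((1 + x) ^ n - 1)) * (1 + x) - 1 := by ring
    rw [h]
    exact norm_one_add_mul_sub_one_le hε1 ih hx

end Ultra

section Inverse

variable {R : Type*} [NormedCommRing R] [IsUltrametricDist R] [CompleteSpace R]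

/-- In a complete ultrametric normed commutative ring, `1 + h` with `‖h‖ < 1` has an inverse of the
form `1 + z`, `‖z‖ ≤ ‖h‖`; moreover `z` can be taken in any closed additive subgroup `C` containing
`h` and stable under multiplication by `h`. -/
theorem exists_one_add_inv_mem (C : AddSubgroup R) (hC : IsClosed (C : Set R)) {h : R}
    (hh : h ∈ C) (hmul : ∀ z ∈ C, h * z ∈ C) (hlt : ‖h‖ < 1) :
    ∃ z ∈ C, ‖z‖ ≤ ‖h‖ ∧ (1 + h) * (1 + z) = 1 := by
  set ε : ℝ := ‖h‖ with hε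
  have hε0 : 0 ≤ ε := norm_nonneg _
  set K : NNReal := ⟨ε, hε0⟩ with hK
  set s : Set R := closedBall (0 : R) ε ∩ (C : Set R) with hs
  have hsc : IsComplete s := (isClosed_closedBall.inter hC).isComplete
  set T : R → R := fun z => -h - h * z with hT
  have hsf : Set.MapsTo T s s := by
    intro z hz
    have hz1 : ‖z‖ ≤ ε := by simpa using hz.1
    refine ⟨?_, C.sub_mem (C.neg_mem hh) (hmul z hz.2)⟩
    simp only [mem_closedBall, dist_zero_right, hT]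
    refine norm_sub_le_of_le (by rw [norm_neg]) ((norm_mul_le_of_le le_rfl hz1).trans ?_)
    calc ε * ε ≤ ε * 1 := mul_le_mul_of_nonneg_left hlt.le hε0
      _ = ε := mul_one ε
  have hcontr : ContractingWith K (hsf.restrict T s s) := by
    refine ⟨by rw [← NNReal.coe_lt_coe, NNReal.coe_one]; exact hlt, ?_⟩
    refine LipschitzWith.of_dist_le_mul fun x y => ?_
    rw [Subtype.dist_eq, Subtype.dist_eq]
    simp only [Set.MapsTo.val_restrict_apply, hT, dist_eq_norm]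
    have : -h - h * (x : R) - (-h - h * (y : R)) = -(h * ((x : R) - y)) := by ring
    rw [this, norm_neg]
    exact norm_mul_le_of_le le_rfl le_rfl
  obtain ⟨z, hz, hfix, -⟩ := hcontr.exists_fixedPoint' hsc hsf (x := 0)
    ⟨by simp [hε0], C.zero_mem⟩ (edist_ne_top _ _)
  refine ⟨z, hz.2, by simpa using hz.1, ?_⟩
  have h1 : -h - h * z = z := hfix
  calc (1 + h) * (1 + z) = 1 + (h + h * z + z) := by ring
    _ = 1 + (h + h * z + (-h - h * z)) := by rw [h1]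
    _ = 1 := by ring

/-- In a complete ultrametric normed commutative ring, `1 + h` with `‖h‖ < 1` has an inverse of the
form `1 + z`, `‖z‖ ≤ ‖h‖`. -/
theorem exists_one_add_inv {h : R} (hlt : ‖h‖ < 1) :
    ∃ z : R, ‖z‖ ≤ ‖h‖ ∧ (1 + h) * (1 + z) = 1 := by
  obtain ⟨z, -, hz, hz'⟩ := exists_one_add_inv_mem (⊤ : AddSubgroup R) (by simp)
    (AddSubgroup.mem_top h) (fun _ _ => AddSubgroup.mem_top _) hlt
  exact ⟨z, hz, hz'⟩

end Inverse

end Fermat.Agent.FF3.Birkhoff
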