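import Mathlib
import Fermat.Agent.FF3.Birkhoff.Ultra

/-!
# FF3 / Birkhoff : abstract Birkhoff factorisation (Mathlib-only leaf, L1a)

`R` is a commutative normed ring with ultrametric distance.  A `Split R` is an **orthogonal
decomposition** `R = B₀ ⊕ B₊ ⊕ B₋` given by three additive projections `p0, pP, pM`
(sum `= id`, mutually annihilating, norm-nonincreasing).  `B₀ = {x | p0 x = x}` etc.

Model: `R` = functions on a closed annulus `r₁ ≤ |t| ≤ r₂` (norm = max of the two Gauss norms),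
`B₀` = constants, `B₊ = t·K⟨t/r₂⟩`, `B₋ = (r₁/t)·K⟨r₁/t⟩`; or `R = W[[X,Y]]/(XY - π)` with the
`ϖ`-adic norm, `B₊ = X·W[[X]]`, `B₋ = Y·W[[Y]]`.

Main results (no multiplicative hypothesis on the pieces is needed here):

* `Split.exists_factor` (R complete): every `G` with `‖G - 1‖ < 1` is
  `(1 + a) * (1 + b) * (1 + d)` with `a ∈ B₀`, `b ∈ B₊`, `d ∈ B₋`, all of norm `≤ ‖G - 1‖`,
  and `‖G - 1 - (a + b + d)‖ ≤ ‖G - 1‖ ^ 2`;
* `Split.factor_unique` : such a factorisation is unique.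
-/

set_option autoImplicit false

namespace Fermat.Agent.FF3.Birkhoff

open Function Metric

/-- An orthogonal decomposition `R = B₀ ⊕ B₊ ⊕ B₋` of a normed commutative ring, presented by the
three additive projections. -/
structure Split (R : Type*) [NormedCommRing R] where
  /-- projection on the constants `B₀` -/
  p0 : R →+ R
  /-- projection on the plus part `B₊` -/
  pP : R →+ R
  /-- projection on the minus part `B₋` -/
  pM : R →+ R
  add_eq : ∀ x, p0 x + pP x + pM x = x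
  p0_pP : ∀ x, p0 (pP x) = 0
  p0_pM : ∀ x, p0 (pM x) = 0
  pP_p0 : ∀ x, pP (p0 x) = 0
  pP_pM : ∀ x, pP (pM x) = 0
  pM_p0 : ∀ x, pM (p0 x) = 0
  pM_pP : ∀ x, pM (pP x) = 0
  norm_p0_le : ∀ x, ‖p0 x‖ ≤ ‖x‖
  norm_pP_le : ∀ x, ‖pP x‖ ≤ ‖x‖
  norm_pM_le : ∀ x, ‖pM x‖ ≤ ‖x‖

namespace Split

variable {R : Type*} [NormedCommRing R] (S : Split R)

/-- the constants `B₀`, as an additive subgroup -/
def B0 : AddSubgroup R where
  carrier := {x | S.p0 x = x}
  zero_mem' := map_zero _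
  add_mem' := fun {x y} (hx : S.p0 x = x) (hy : S.p0 y = y) =>
    show S.p0 (x + y) = x + y by rw [map_add, hx, hy]
  neg_mem' := fun {x} (hx : S.p0 x = x) =>
    show S.p0 (-x) = -x by rw [map_neg, hx]

/-- the plus part `B₊`, as an additive subgroup -/
def BP : AddSubgroup R where
  carrier := {x | S.pP x = x}
  zero_mem' := map_zero _
  add_mem' := fun {x y} (hx : S.pP x = x) (hy : S.pP y = y) =>
    show S.pP (x + y) = x + y by rw [map_add, hx, hy]
  neg_mem' := fun {x} (hx : S.pP x = x) =>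
    show S.pP (-x) = -x by rw [map_neg, hx]

/-- the minus part `B₋`, as an additive subgroup -/
def BM : AddSubgroup R where
  carrier := {x | S.pM x = x}
  zero_mem' := map_zero _
  add_mem' := fun {x y} (hx : S.pM x = x) (hy : S.pM y = y) =>
    show S.pM (x + y) = x + y by rw [map_add, hx, hy]
  neg_mem' := fun {x} (hx : S.pM x = x) =>
    show S.pM (-x) = -x by rw [map_neg, hx]

theorem mem_B0 {x : R} : x ∈ S.B0 ↔ S.p0 x = x := Iff.rfl
theorem mem_BP {x : R} : x ∈ S.BP ↔ S.pP x = x := Iff.rfl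
theorem mem_BM {x : R} : x ∈ S.BM ↔ S.pM x = x := Iff.rfl

theorem p0_p0 (x : R) : S.p0 (S.p0 x) = S.p0 x := by
  have h := congrArg S.p0 (S.add_eq x)
  rw [map_add, map_add, S.p0_pP, S.p0_pM, add_zero, add_zero] at h
  exact h

theorem pP_pP (x : R) : S.pP (S.pP x) = S.pP x := by
  have h := congrArg S.pP (S.add_eq x)
  rw [map_add, map_add, S.pP_p0, S.pP_pM, add_zero, zero_add] at h
  exact h

theorem pM_pM (x : R) : S.pM (S.pM x) = S.pM x := by
  have h := congrArg S.pM (S.add_eq x)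
  rw [map_add, map_add, S.pM_p0, S.pM_pP, zero_add, zero_add] at h
  exact h

theorem p0_mem (x : R) : S.p0 x ∈ S.B0 := S.p0_p0 x
theorem pP_mem (x : R) : S.pP x ∈ S.BP := S.pP_pP x
theorem pM_mem (x : R) : S.pM x ∈ S.BM := S.pM_pM x

theorem pP_of_mem_B0 {x : R} (h : x ∈ S.B0) : S.pP x = 0 := by
  rw [← S.mem_B0.1 h]; exact S.pP_p0 x
theorem pM_of_mem_B0 {x : R} (h : x ∈ S.B0) : S.pM x = 0 := by
  rw [← S.mem_B0.1 h]; exact S.pM_p0 x
theorem p0_of_mem_BP {x : R} (h : x ∈ S.BP) : S.p0 x = 0 := by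
  rw [← S.mem_BP.1 h]; exact S.p0_pP x
theorem pM_of_mem_BP {x : R} (h : x ∈ S.BP) : S.pM x = 0 := by
  rw [← S.mem_BP.1 h]; exact S.pM_pP x
theorem p0_of_mem_BM {x : R} (h : x ∈ S.BM) : S.p0 x = 0 := by
  rw [← S.mem_BM.1 h]; exact S.p0_pM x
theorem pP_of_mem_BM {x : R} (h : x ∈ S.BM) : S.pP x = 0 := by
  rw [← S.mem_BM.1 h]; exact S.pP_pM x

/-- the three components of `a + b + d`, `a ∈ B₀`, `b ∈ B₊`, `d ∈ B₋` -/
theorem p0_add3 {a b d : R} (ha : a ∈ S.B0) (hb : b ∈ S.BP) (hd : d ∈ S.BM) :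
    S.p0 (a + b + d) = a := by
  rw [map_add, map_add, S.mem_B0.1 ha, S.p0_of_mem_BP hb, S.p0_of_mem_BM hd, add_zero, add_zero]

theorem pP_add3 {a b d : R} (ha : a ∈ S.B0) (hb : b ∈ S.BP) (hd : d ∈ S.BM) :
    S.pP (a + b + d) = b := by
  rw [map_add, map_add, S.pP_of_mem_B0 ha, S.mem_BP.1 hb, S.pP_of_mem_BM hd, zero_add, add_zero]

theorem pM_add3 {a b d : R} (ha : a ∈ S.B0) (hb : b ∈ S.BP) (hd : d ∈ S.BM) :
    S.pM (a + b + d) = d := by
  rw [map_add, map_add, S.pM_of_mem_B0 ha, S.pM_of_mem_BP hb, S.mem_BM.1 hd, zero_add, zero_add]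

/-- **Orthogonality** (lower bounds): each component is bounded by the norm of the sum. -/
theorem norm_le_add3 {a b d : R} (ha : a ∈ S.B0) (hb : b ∈ S.BP) (hd : d ∈ S.BM) :
    ‖a‖ ≤ ‖a + b + d‖ ∧ ‖b‖ ≤ ‖a + b + d‖ ∧ ‖d‖ ≤ ‖a + b + d‖ := by
  refine ⟨?_, ?_, ?_⟩
  · simpa [S.p0_add3 ha hb hd] using S.norm_p0_le (a + b + d)
  · simpa [S.pP_add3 ha hb hd] using S.norm_pP_le (a + b + d)
  · simpa [S.pM_add3 ha hb hd] using S.norm_pM_le (a + b + d)

/-- the decomposition is direct -/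
theorem eq_zero_of_add3_eq_zero {a b d : R} (ha : a ∈ S.B0) (hb : b ∈ S.BP) (hd : d ∈ S.BM)
    (h : a + b + d = 0) : a = 0 ∧ b = 0 ∧ d = 0 := by
  obtain ⟨h1, h2, h3⟩ := S.norm_le_add3 ha hb hd
  rw [h, norm_zero] at h1 h2 h3
  exact ⟨norm_le_zero_iff.1 h1, norm_le_zero_iff.1 h2, norm_le_zero_iff.1 h3⟩

theorem isClosed_B0 : IsClosed (S.B0 : Set R) := by
  have hc : Continuous S.p0 :=
    (AddMonoidHomClass.lipschitz_of_bound S.p0 1 (fun x => by simpa using S.norm_p0_le x)).continuous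
  exact isClosed_eq hc continuous_id

theorem isClosed_BP : IsClosed (S.BP : Set R) := by
  have hc : Continuous S.pP :=
    (AddMonoidHomClass.lipschitz_of_bound S.pP 1 (fun x => by simpa using S.norm_pP_le x)).continuous
  exact isClosed_eq hc continuous_id

theorem isClosed_BM : IsClosed (S.BM : Set R) := by
  have hc : Continuous S.pM :=
    (AddMonoidHomClass.lipschitz_of_bound S.pM 1 (fun x => by simpa using S.norm_pM_le x)).continuous
  exact isClosed_eq hc continuous_id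

variable [IsUltrametricDist R]

/-- **Birkhoff uniqueness.**  If `(1+a)(1+b)(1+d) = (1+a')(1+b')(1+d')` with `a, a' ∈ B₀`,
`b, b' ∈ B₊`, `d, d' ∈ B₋` all of norm `< 1`, then `a = a'`, `b = b'`, `d = d'`. -/
theorem factor_unique {a b d a' b' d' : R}
    (ha : a ∈ S.B0) (hb : b ∈ S.BP) (hd : d ∈ S.BM)
    (ha' : a' ∈ S.B0) (hb' : b' ∈ S.BP) (hd' : d' ∈ S.BM)
    (hb1 : ‖b‖ < 1) (hd1 : ‖d‖ < 1) (ha1' : ‖a'‖ < 1) (hb1' : ‖b'‖ < 1)
    (h : (1 + a) * (1 + b) * (1 + d) = (1 + a') * (1 + b') * (1 + d')) :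
    a = a' ∧ b = b' ∧ d = d' := by
  set ε : ℝ := max (max ‖b‖ ‖d‖) (max ‖a'‖ ‖b'‖) with hε
  have hε1 : ε < 1 := max_lt (max_lt hb1 hd1) (max_lt ha1' hb1')
  have hbε : ‖b‖ ≤ ε := (le_max_left _ _).trans (le_max_left _ _)
  have hdε : ‖d‖ ≤ ε := (le_max_right _ _).trans (le_max_left _ _)
  have haε' : ‖a'‖ ≤ ε := (le_max_left _ _).trans (le_max_right _ _)
  have hbε' : ‖b'‖ ≤ ε := (le_max_right _ _).trans (le_max_right _ _)
  have hε0 : 0 ≤ ε := (norm_nonneg _).trans hbε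
  set δ : ℝ := ‖(a - a') + (b - b') + (d - d')‖ with hδ
  have hA : a - a' ∈ S.B0 := S.B0.sub_mem ha ha'
  have hB : b - b' ∈ S.BP := S.BP.sub_mem hb hb'
  have hD : d - d' ∈ S.BM := S.BM.sub_mem hd hd'
  obtain ⟨h1, h2, h3⟩ := S.norm_le_add3 hA hB hD
  have key := norm_triple_sub_le (R := R) hε1.le hbε hdε haε' hbε' h1 h2 h3
  rw [h, sub_self, zero_sub, norm_neg] at key
  -- `δ ≤ ε δ` with `ε < 1` forces `δ = 0`
  have hδ0 : δ = 0 := by
    have hδn : 0 ≤ δ := norm_nonneg _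
    by_contra hne
    have hpos : 0 < δ := lt_of_le_of_ne hδn (Ne.symm hne)
    have : ε * δ < 1 * δ := mul_lt_mul_of_pos_right hε1 hpos
    rw [one_mul] at this
    exact absurd key (not_le.2 this)
  have hz : (a - a') + (b - b') + (d - d') = 0 := norm_eq_zero.1 hδ0
  obtain ⟨z1, z2, z3⟩ := S.eq_zero_of_add3_eq_zero hA hB hD hz
  exact ⟨sub_eq_zero.1 z1, sub_eq_zero.1 z2, sub_eq_zero.1 z3⟩

/-- **Birkhoff existence.**  In a complete ultrametric normed commutative ring with an orthogonal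
decomposition, every `G` with `‖G - 1‖ < 1` is `(1 + a)(1 + b)(1 + d)` with `a ∈ B₀`, `b ∈ B₊`,
`d ∈ B₋`, all of norm `≤ ‖G - 1‖`; moreover `a + b + d` is `G - 1` up to `‖G - 1‖²`. -/
theorem exists_factor [CompleteSpace R] {G : R} (hG : ‖G - 1‖ < 1) :
    ∃ a b d : R, a ∈ S.B0 ∧ b ∈ S.BP ∧ d ∈ S.BM ∧
      ‖a‖ ≤ ‖G - 1‖ ∧ ‖b‖ ≤ ‖G - 1‖ ∧ ‖d‖ ≤ ‖G - 1‖ ∧
      ‖G - 1 - (a + b + d)‖ ≤ ‖G - 1‖ * ‖G - 1‖ ∧
      G = (1 + a) * (1 + b) * (1 + d) := by
  set ε : ℝ := ‖G - 1‖ with hε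
  have hε0 : 0 ≤ ε := norm_nonneg _
  have hεε : ε * ε ≤ ε := by
    calc ε * ε ≤ ε * 1 := mul_le_mul_of_nonneg_left hG.le hε0
      _ = ε := mul_one ε
  set K : NNReal := ⟨ε, hε0⟩ with hK
  set s : Set R := closedBall (0 : R) ε with hs
  have hsc : IsComplete s := isClosed_closedBall.isComplete
  -- the higher-order part of the triple product
  set hi : R → R := fun y =>
    (1 + S.p0 y) * (1 + S.pP y) * (1 + S.pM y) - 1 - y with hhi
  set T : R → R := fun y => (G - 1) - hi y with hT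
  -- estimate on `hi`
  have hhi_le : ∀ y y' : R, ‖y‖ ≤ ε → ‖y'‖ ≤ ε → ‖hi y - hi y'‖ ≤ ε * ‖y - y'‖ := by
    intro y y' hy hy'
    have e : hi y - hi y' =
        (1 + S.p0 y) * (1 + S.pP y) * (1 + S.pM y)
          - (1 + S.p0 y') * (1 + S.pP y') * (1 + S.pM y')
          - ((S.p0 y - S.p0 y') + (S.pP y - S.pP y') + (S.pM y - S.pM y')) := by
      have e1 : (S.p0 y - S.p0 y') + (S.pP y - S.pP y') + (S.pM y - S.pM y') = y - y' := by
        have := S.add_eq y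
        have := S.add_eq y'
        calc (S.p0 y - S.p0 y') + (S.pP y - S.pP y') + (S.pM y - S.pM y')
            = (S.p0 y + S.pP y + S.pM y) - (S.p0 y' + S.pP y' + S.pM y') := by ring
          _ = y - y' := by rw [S.add_eq y, S.add_eq y']
      rw [e1]
      simp only [hhi]
      ring
    rw [e]
    refine norm_triple_sub_le hG.le ((S.norm_pP_le y).trans hy) ((S.norm_pM_le y).trans hy)
      ((S.norm_p0_le y').trans hy') ((S.norm_pP_le y').trans hy') ?_ ?_ ?_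
    · rw [← map_sub]; exact S.norm_p0_le _
    · rw [← map_sub]; exact S.norm_pP_le _
    · rw [← map_sub]; exact S.norm_pM_le _
  have hhi0 : hi 0 = 0 := by simp [hhi]
  have hhi_norm : ∀ y : R, ‖y‖ ≤ ε → ‖hi y‖ ≤ ε * ε := by
    intro y hy
    have := hhi_le y 0 hy (by simpa using hε0)
    rw [hhi0, sub_zero, sub_zero] at this
    exact this.trans (mul_le_mul_of_nonneg_left hy hε0)
  have hsf : Set.MapsTo T s s := by
    intro y hy
    have hy1 : ‖y‖ ≤ ε := mem_closedBall_zero_iff.1 hy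
    simp only [hs, mem_closedBall, dist_zero_right, hT]
    exact norm_sub_le_of_le le_rfl ((hhi_norm y hy1).trans hεε)
  have hcontr : ContractingWith K (hsf.restrict T s s) := by
    refine ⟨by rw [← NNReal.coe_lt_coe, NNReal.coe_one]; exact hG, ?_⟩
    refine LipschitzWith.of_dist_le_mul fun x y => ?_
    rw [Subtype.dist_eq, Subtype.dist_eq]
    simp only [Set.MapsTo.val_restrict_apply, hT, dist_eq_norm]
    have hx1 : ‖(x : R)‖ ≤ ε := mem_closedBall_zero_iff.1 x.2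
    have hy1 : ‖(y : R)‖ ≤ ε := mem_closedBall_zero_iff.1 y.2
    have : G - 1 - hi (x : R) - (G - 1 - hi (y : R)) = -(hi (x : R) - hi (y : R)) := by ring
    rw [this, norm_neg]
    exact hhi_le _ _ hx1 hy1
  obtain ⟨y, hy, hfix, -⟩ := hcontr.exists_fixedPoint' hsc hsf (x := 0)
    (by simp [hs, hε0]) (edist_ne_top _ _)
  have hy1 : ‖y‖ ≤ ε := mem_closedBall_zero_iff.1 hy
  have h1 : (G - 1) - hi y = y := hfix
  refine ⟨S.p0 y, S.pP y, S.pM y, S.p0_mem y, S.pP_mem y, S.pM_mem y,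
    (S.norm_p0_le y).trans hy1, (S.norm_pP_le y).trans hy1, (S.norm_pM_le y).trans hy1, ?_, ?_⟩
  · rw [S.add_eq y]
    have : G - 1 - y = hi y := by linear_combination h1
    rw [this]
    exact hhi_norm y hy1
  · simp only [hhi] at h1
    linear_combination h1

end Split

end Fermat.Agent.FF3.Birkhoff
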