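import Mathlib
import Fermat.Agent.FF3.Birkhoff.Split

/-!
# FF3 / Birkhoff : multiplicative splittings, 1-units, monomial uniqueness (L1a, part 2)

* `Split.IsMul` : `B₀` is a subring, `B₊`, `B₋` are closed under multiplication and under `B₀`.
* `Split.IsMul.exists_inv_BP/BM/B0` : the inverse of `1 + b` (`b ∈ B₊`, `‖b‖ < 1`) is again of the
  form `1 + z`, `z ∈ B₊`, `‖z‖ ≤ ‖b‖` (complete case).
* `Split.IsParam S t` : `t` is a unit such that `c * t ^ n` (`c ∈ B₀`, `n ≠ 0`) has no constant term.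
* `Split.IsMul.mono_factor_unique` : **uniqueness of `c · t ^ n · (1 + b) · (1 + d)`**.
-/

set_option autoImplicit false

namespace Fermat.Agent.FF3.Birkhoff

open Function Metric

namespace Split

variable {R : Type*} [NormedCommRing R] (S : Split R)

/-- multiplicative compatibility of a splitting: `B₀` is a subring, `B₊` and `B₋` are closed under
multiplication and under multiplication by `B₀` (so `B₀ ⊕ B₊` and `B₀ ⊕ B₋` are subrings in which
`B₊`, `B₋` are ideals). -/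
structure IsMul : Prop where
  one_mem : (1 : R) ∈ S.B0
  mul_00 : ∀ {x y : R}, x ∈ S.B0 → y ∈ S.B0 → x * y ∈ S.B0
  mul_PP : ∀ {x y : R}, x ∈ S.BP → y ∈ S.BP → x * y ∈ S.BP
  mul_MM : ∀ {x y : R}, x ∈ S.BM → y ∈ S.BM → x * y ∈ S.BM
  mul_0P : ∀ {x y : R}, x ∈ S.B0 → y ∈ S.BP → x * y ∈ S.BP
  mul_0M : ∀ {x y : R}, x ∈ S.B0 → y ∈ S.BM → x * y ∈ S.BM

/-- `c` is a unit of the ring of constants `B₀`. -/
def IsUnit0 (c : R) : Prop := c ∈ S.B0 ∧ ∃ e ∈ S.B0, c * e = 1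

/-- `t` is a *parameter* for the splitting: `c * t ^ n` has no constant term for `c ∈ B₀`,
`n ≠ 0`. -/
def IsParam (t : Rˣ) : Prop :=
  ∀ c ∈ S.B0, ∀ n : ℤ, n ≠ 0 → S.p0 (c * ((t ^ n : Rˣ) : R)) = 0

variable {S}

namespace IsMul

variable (hS : S.IsMul)
include hS

theorem one_add_mul_sub_one_mem_B0 {a a' : R} (ha : a ∈ S.B0) (ha' : a' ∈ S.B0) :
    (1 + a) * (1 + a') - 1 ∈ S.B0 := by
  have h : (1 + a) * (1 + a') - 1 = a + a' + a * a' := by ring
  rw [h]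
  exact S.B0.add_mem (S.B0.add_mem ha ha') (hS.mul_00 ha ha')

theorem one_add_mul_sub_one_mem_BP {b b' : R} (hb : b ∈ S.BP) (hb' : b' ∈ S.BP) :
    (1 + b) * (1 + b') - 1 ∈ S.BP := by
  have h : (1 + b) * (1 + b') - 1 = b + b' + b * b' := by ring
  rw [h]
  exact S.BP.add_mem (S.BP.add_mem hb hb') (hS.mul_PP hb hb')

theorem one_add_mul_sub_one_mem_BM {d d' : R} (hd : d ∈ S.BM) (hd' : d' ∈ S.BM) :
    (1 + d) * (1 + d') - 1 ∈ S.BM := by
  have h : (1 + d) * (1 + d') - 1 = d + d' + d * d' := by ring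
  rw [h]
  exact S.BM.add_mem (S.BM.add_mem hd hd') (hS.mul_MM hd hd')

theorem one_add_pow_sub_one_mem_B0 {a : R} (ha : a ∈ S.B0) (n : ℕ) :
    (1 + a) ^ n - 1 ∈ S.B0 := by
  induction n with
  | zero => simp
  | succ n ih =>
    have h : (1 + a) ^ (n + 1) - 1 = (1 + ((1 + a) ^ n - 1)) * (1 + a) - 1 := by ring
    rw [h]
    exact hS.one_add_mul_sub_one_mem_B0 ih ha

theorem one_add_pow_sub_one_mem_BP {b : R} (hb : b ∈ S.BP) (n : ℕ) :
    (1 + b) ^ n - 1 ∈ S.BP := by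
  induction n with
  | zero => simp
  | succ n ih =>
    have h : (1 + b) ^ (n + 1) - 1 = (1 + ((1 + b) ^ n - 1)) * (1 + b) - 1 := by ring
    rw [h]
    exact hS.one_add_mul_sub_one_mem_BP ih hb

theorem one_add_pow_sub_one_mem_BM {d : R} (hd : d ∈ S.BM) (n : ℕ) :
    (1 + d) ^ n - 1 ∈ S.BM := by
  induction n with
  | zero => simp
  | succ n ih =>
    have h : (1 + d) ^ (n + 1) - 1 = (1 + ((1 + d) ^ n - 1)) * (1 + d) - 1 := by ring
    rw [h]
    exact hS.one_add_mul_sub_one_mem_BM ih hd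

theorem pow_mem_B0 {c : R} (hc : c ∈ S.B0) (n : ℕ) : c ^ n ∈ S.B0 := by
  induction n with
  | zero => simpa using hS.one_mem
  | succ n ih => rw [pow_succ]; exact hS.mul_00 ih hc

theorem isUnit0_one : S.IsUnit0 1 := ⟨hS.one_mem, 1, hS.one_mem, one_mul 1⟩

theorem isUnit0_mul {c c' : R} (hc : S.IsUnit0 c) (hc' : S.IsUnit0 c') : S.IsUnit0 (c * c') := by
  obtain ⟨h1, e, he, h2⟩ := hc
  obtain ⟨h1', e', he', h2'⟩ := hc'
  refine ⟨hS.mul_00 h1 h1', e * e', hS.mul_00 he he', ?_⟩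
  calc c * c' * (e * e') = (c * e) * (c' * e') := by ring
    _ = 1 := by rw [h2, h2', one_mul]

theorem isUnit0_pow {c : R} (hc : S.IsUnit0 c) (n : ℕ) : S.IsUnit0 (c ^ n) := by
  induction n with
  | zero => simpa using hS.isUnit0_one
  | succ n ih => rw [pow_succ]; exact hS.isUnit0_mul ih hc

section Complete

variable [IsUltrametricDist R] [CompleteSpace R]

theorem exists_inv_B0 {a : R} (ha : a ∈ S.B0) (h1 : ‖a‖ < 1) :
    ∃ z ∈ S.B0, ‖z‖ ≤ ‖a‖ ∧ (1 + a) * (1 + z) = 1 :=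
  exists_one_add_inv_mem S.B0 S.isClosed_B0 ha (fun _ hz => hS.mul_00 ha hz) h1

theorem exists_inv_BP {b : R} (hb : b ∈ S.BP) (h1 : ‖b‖ < 1) :
    ∃ z ∈ S.BP, ‖z‖ ≤ ‖b‖ ∧ (1 + b) * (1 + z) = 1 :=
  exists_one_add_inv_mem S.BP S.isClosed_BP hb (fun _ hz => hS.mul_PP hb hz) h1

theorem exists_inv_BM {d : R} (hd : d ∈ S.BM) (h1 : ‖d‖ < 1) :
    ∃ z ∈ S.BM, ‖z‖ ≤ ‖d‖ ∧ (1 + d) * (1 + z) = 1 :=
  exists_one_add_inv_mem S.BM S.isClosed_BM hd (fun _ hz => hS.mul_MM hd hz) h1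

/-- a 1-unit of `B₀` is a unit of `B₀` -/
theorem isUnit0_one_add {a : R} (ha : a ∈ S.B0) (h1 : ‖a‖ < 1) : S.IsUnit0 (1 + a) := by
  obtain ⟨z, hz, -, h⟩ := hS.exists_inv_B0 ha h1
  exact ⟨S.B0.add_mem hS.one_mem ha, 1 + z, S.B0.add_mem hS.one_mem hz, h⟩

variable [NormOneClass R]

/-- **Uniqueness of the monomial Birkhoff factorisation** `c · t ^ n · (1 + b) · (1 + d)`,
`c` a unit of `B₀`, `b ∈ B₊`, `d ∈ B₋` of norm `< 1`. -/
theorem mono_factor_unique {t : Rˣ} (ht : S.IsParam t) {c c' : R} (hc : c ∈ S.B0)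
    (hc' : S.IsUnit0 c') {n n' : ℤ} {b d b' d' : R}
    (hb : b ∈ S.BP) (hd : d ∈ S.BM) (hb' : b' ∈ S.BP) (hd' : d' ∈ S.BM)
    (hb1 : ‖b‖ < 1) (hd1 : ‖d‖ < 1) (hb1' : ‖b'‖ < 1) (hd1' : ‖d'‖ < 1)
    (h : c * ((t ^ n : Rˣ) : R) * (1 + b) * (1 + d)
        = c' * ((t ^ n' : Rˣ) : R) * (1 + b') * (1 + d')) :
    n = n' ∧ c = c' ∧ b = b' ∧ d = d' := by
  obtain ⟨hc'0, e, he, hce⟩ := hc'
  obtain ⟨β, hβ, hβ1, hbβ⟩ := hS.exists_inv_BP hb hb1
  obtain ⟨θ, hθ, hθ1, hdθ⟩ := hS.exists_inv_BM hd hd1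
  -- the quotient `1`-units
  set b'' : R := (1 + b') * (1 + β) - 1 with hb''
  set d'' : R := (1 + d') * (1 + θ) - 1 with hd''
  have hb''m : b'' ∈ S.BP := hS.one_add_mul_sub_one_mem_BP hb' hβ
  have hd''m : d'' ∈ S.BM := hS.one_add_mul_sub_one_mem_BM hd' hθ
  set ε : ℝ := max (max ‖b'‖ ‖d'‖) (max ‖b‖ ‖d‖) with hε
  have hε1 : ε < 1 := max_lt (max_lt hb1' hd1') (max_lt hb1 hd1)
  have hb'ε : ‖b'‖ ≤ ε := (le_max_left _ _).trans (le_max_left _ _)
  have hd'ε : ‖d'‖ ≤ ε := (le_max_right _ _).trans (le_max_left _ _)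
  have hβε : ‖β‖ ≤ ε := hβ1.trans ((le_max_left _ _).trans (le_max_right _ _))
  have hθε : ‖θ‖ ≤ ε := hθ1.trans ((le_max_right _ _).trans (le_max_right _ _))
  have hb''1 : ‖b''‖ ≤ ε := norm_one_add_mul_sub_one_le hε1.le hb'ε hβε
  have hd''1 : ‖d''‖ ≤ ε := norm_one_add_mul_sub_one_le hε1.le hd'ε hθε
  -- the key identity
  have hunit : ((t ^ n' : Rˣ) : R) * ((t ^ (-n') : Rˣ) : R) = 1 := by
    rw [← Units.val_mul, ← zpow_add, add_neg_cancel, zpow_zero, Units.val_one]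
  have hadd : ((t ^ n : Rˣ) : R) * ((t ^ (-n') : Rˣ) : R) = ((t ^ (n - n') : Rˣ) : R) := by
    rw [← Units.val_mul, ← zpow_add, sub_eq_add_neg]
  have key : (e * c) * ((t ^ (n - n') : Rˣ) : R) = (1 + b'') * (1 + d'') := by
    have h2 := congrArg (fun x => x * (e * ((t ^ (-n') : Rˣ) : R) * (1 + β) * (1 + θ))) h
    calc (e * c) * ((t ^ (n - n') : Rˣ) : R)
        = (e * c) * (((t ^ n : Rˣ) : R) * ((t ^ (-n') : Rˣ) : R))
            * (((1 + b) * (1 + β)) * ((1 + d) * (1 + θ))) := by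
          rw [hadd, hbβ, hdθ]; ring
      _ = c * ((t ^ n : Rˣ) : R) * (1 + b) * (1 + d)
            * (e * ((t ^ (-n') : Rˣ) : R) * (1 + β) * (1 + θ)) := by ring
      _ = c' * ((t ^ n' : Rˣ) : R) * (1 + b') * (1 + d')
            * (e * ((t ^ (-n') : Rˣ) : R) * (1 + β) * (1 + θ)) := h2
      _ = (c' * e) * (((t ^ n' : Rˣ) : R) * ((t ^ (-n') : Rˣ) : R))
            * (((1 + b') * (1 + β)) * ((1 + d') * (1 + θ))) := by ring
      _ = (1 + b'') * (1 + d'') := by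
          rw [hce, hunit, hb'', hd'']; ring
  have hw1 : ‖(e * c) * ((t ^ (n - n') : Rˣ) : R) - 1‖ ≤ ε := by
    rw [key]; exact norm_one_add_mul_sub_one_le hε1.le hb''1 hd''1
  have hec : e * c ∈ S.B0 := hS.mul_00 he hc
  -- the exponents agree
  have hn : n = n' := by
    by_contra hne
    have hp := ht (e * c) hec (n - n') (sub_ne_zero.2 hne)
    have h3 := S.norm_p0_le ((e * c) * ((t ^ (n - n') : Rˣ) : R) - 1)
    rw [map_sub, hp, S.mem_B0.1 hS.one_mem, zero_sub, norm_neg, norm_one] at h3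
    exact absurd (h3.trans hw1) (not_le.2 hε1)
  subst hn
  rw [sub_self, zpow_zero, Units.val_one, mul_one] at key hw1
  -- Birkhoff uniqueness
  have ha : e * c - 1 ∈ S.B0 := S.B0.sub_mem hec hS.one_mem
  have huniq := S.factor_unique ha S.BP.zero_mem S.BM.zero_mem S.B0.zero_mem hb''m hd''m
    (by simp) (by simp) (by simp) (hb''1.trans_lt hε1)
    (by linear_combination key)
  obtain ⟨u1, u2, u3⟩ := huniq
  have hec1 : e * c = 1 := sub_eq_zero.1 u1
  have hcc : c = c' := by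
    calc c = (c' * e) * c := by rw [hce, one_mul]
      _ = c' * (e * c) := by ring
      _ = c' := by rw [hec1, mul_one]
  have hbb : b = b' := by
    have h4 : (1 + b') * (1 + β) = 1 := by
      have : b'' = 0 := u2.symm
      rw [hb''] at this
      exact sub_eq_zero.1 this
    have : 1 + b = 1 + b' := by
      calc 1 + b = (1 + b) * ((1 + b') * (1 + β)) := by rw [h4, mul_one]
        _ = (1 + b') * ((1 + b) * (1 + β)) := by ring
        _ = 1 + b' := by rw [hbβ, mul_one]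
    exact add_left_cancel this
  have hdd : d = d' := by
    have h4 : (1 + d') * (1 + θ) = 1 := by
      have : d'' = 0 := u3.symm
      rw [hd''] at this
      exact sub_eq_zero.1 this
    have : 1 + d = 1 + d' := by
      calc 1 + d = (1 + d) * ((1 + d') * (1 + θ)) := by rw [h4, mul_one]
        _ = (1 + d') * ((1 + d) * (1 + θ)) := by ring
        _ = 1 + d' := by rw [hdθ, mul_one]
    exact add_left_cancel this
  exact ⟨rfl, hcc, hbb, hdd⟩

end Complete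

end IsMul

end Split

end Fermat.Agent.FF3.Birkhoff
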